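import Mathlib
import Fermat.Prelude.Def_ModularForm_HeckeOperator

/-!
# S48, part A, brick A1b (nebentypus), file 1: the twisted Hecke operator on `Γ₁(N)`

For a prime `p ∤ N` and `δ ∈ Γ₀(N)` whose lower right entry is `p` modulo `N`, the operator
`Tw f = heckeU k p f + (f ∣[k] δ) ∣[k] diag(p,1)` preserves weight-`k` invariance under `Γ₁(N)`.
-/

set_option autoImplicit false

noncomputable section

namespace Fermat.Agent.S48.A.Neb

open Matrix.SpecialLinearGroup UpperHalfPlane CongruenceSubgroup ModularForm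
open scoped MatrixGroups ModularForm OnePoint

/-- Weight-`k` invariance of a function under `Γ₁(N)`. -/
def Inv1 (N : ℕ) (k : ℤ) (F : ℍ → ℂ) : Prop :=
  ∀ g : SL(2, ℤ), g ∈ Gamma1 N → F ∣[k] (mapGL ℝ g) = F

theorem det_eq (g : SL(2, ℤ)) : g 0 0 * g 1 1 - g 0 1 * g 1 0 = 1 := by
  have h := g.det_coe
  rwa [Matrix.det_fin_two] at h

theorem mapGL_apply (g : SL(2, ℤ)) (i j : Fin 2) :
    (mapGL ℝ g : GL (Fin 2) ℝ) i j = ((g i j : ℤ) : ℝ) := by
  simp

/-- Membership in `Γ₁(N)` only needs the bottom row. -/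
theorem mem_Gamma1_iff {N : ℕ} (g : SL(2, ℤ)) :
    g ∈ Gamma1 N ↔ ((g 1 0 : ℤ) : ZMod N) = 0 ∧ ((g 1 1 : ℤ) : ZMod N) = 1 := by
  rw [Gamma1_mem]
  constructor
  · rintro ⟨-, h1, h0⟩; exact ⟨h0, h1⟩
  · rintro ⟨h0, h1⟩
    refine ⟨?_, h1, h0⟩
    have := congrArg (Int.cast : ℤ → ZMod N) (det_eq g)
    push_cast at this
    rw [h0, h1, mul_zero, sub_zero, mul_one] at this
    exact this


/-- An element of `SL(2, ℤ)` from its four entries. -/
def mkSL (a b c d : ℤ) (h : a * d - b * c = 1) : SL(2, ℤ) :=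
  ⟨!![a, b; c, d], by rw [Matrix.det_fin_two_of]; exact h⟩

@[simp] theorem mkSL_apply_zero_zero (a b c d : ℤ) (h : a * d - b * c = 1) :
    mkSL a b c d h 0 0 = a := rfl
@[simp] theorem mkSL_apply_zero_one (a b c d : ℤ) (h : a * d - b * c = 1) :
    mkSL a b c d h 0 1 = b := rfl
@[simp] theorem mkSL_apply_one_zero (a b c d : ℤ) (h : a * d - b * c = 1) :
    mkSL a b c d h 1 0 = c := rfl
@[simp] theorem mkSL_apply_one_one (a b c d : ℤ) (h : a * d - b * c = 1) :
    mkSL a b c d h 1 1 = d := rfl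

section commutation

variable {p : ℕ} (hp : p ≠ 0)
include hp

/-- `[1 j; 0 p] g = g' [1 j'; 0 p]`. -/
theorem heckeMatrix_mul_heckeMatrix (g : SL(2, ℤ)) (j j' : ℕ) (e : ℤ)
    (he : g 0 1 + j * g 1 1 = j' * (g 0 0 + j * g 1 0) + p * e) :
    ∃ h : (g 0 0 + j * g 1 0) * (g 1 1 - g 1 0 * j') - e * (p * g 1 0) = 1,
      heckeMatrix p j * mapGL ℝ g =
        mapGL ℝ (mkSL (g 0 0 + j * g 1 0) e (p * g 1 0) (g 1 1 - g 1 0 * j') h) *
          heckeMatrix p j' := by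
  have hdet := det_eq g
  refine ⟨by linear_combination hdet + (g 1 0) * he, ?_⟩
  ext i j
  fin_cases i <;> fin_cases j <;>
    simp [hp, Matrix.mul_apply, Fin.sum_univ_two]
  all_goals first
    | (have := congrArg (Int.cast : ℤ → ℝ) he; push_cast at this ⊢; linear_combination this)
    | (have := congrArg (Int.cast : ℤ → ℝ) he; push_cast at this ⊢; linear_combination -this)
    | ring1

/-- `[1 j; 0 p] g = g' [p 0; 0 1]`. -/
theorem heckeMatrix_mul_heckeDiag (g : SL(2, ℤ)) (j : ℕ) (e : ℤ)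
    (he : g 0 0 + j * g 1 0 = p * e) :
    ∃ h : e * (p * g 1 1) - (g 0 1 + j * g 1 1) * g 1 0 = 1,
      heckeMatrix p j * mapGL ℝ g =
        mapGL ℝ (mkSL e (g 0 1 + j * g 1 1) (g 1 0) (p * g 1 1) h) * heckeDiagMatrix p := by
  have hdet := det_eq g
  refine ⟨by linear_combination hdet - (g 1 1) * he, ?_⟩
  ext i j
  fin_cases i <;> fin_cases j <;>
    simp [hp, Matrix.mul_apply, Fin.sum_univ_two]
  all_goals first
    | (have := congrArg (Int.cast : ℤ → ℝ) he; push_cast at this ⊢; linear_combination this)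
    | (have := congrArg (Int.cast : ℤ → ℝ) he; push_cast at this ⊢; linear_combination -this)
    | ring1

/-- `[p 0; 0 1] g = g' [1 j'; 0 p]`. -/
theorem heckeDiag_mul_heckeMatrix (g : SL(2, ℤ)) (j' : ℕ) (e : ℤ)
    (he : g 1 1 = g 1 0 * j' + p * e) :
    ∃ h : (p * g 0 0) * e - (g 0 1 - g 0 0 * j') * g 1 0 = 1,
      heckeDiagMatrix p * mapGL ℝ g =
        mapGL ℝ (mkSL (p * g 0 0) (g 0 1 - g 0 0 * j') (g 1 0) e h) * heckeMatrix p j' := by
  have hdet := det_eq g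
  refine ⟨by linear_combination hdet - (g 0 0) * he, ?_⟩
  ext i j
  fin_cases i <;> fin_cases j <;>
    simp [hp, Matrix.mul_apply, Fin.sum_univ_two]
  all_goals first
    | (have := congrArg (Int.cast : ℤ → ℝ) he; push_cast at this ⊢; linear_combination this)
    | (have := congrArg (Int.cast : ℤ → ℝ) he; push_cast at this ⊢; linear_combination -this)
    | ring1

/-- `[p 0; 0 1] g = g' [p 0; 0 1]`. -/
theorem heckeDiag_mul_heckeDiag (g : SL(2, ℤ)) (e : ℤ) (he : g 1 0 = p * e) :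
    ∃ h : g 0 0 * g 1 1 - (p * g 0 1) * e = 1,
      heckeDiagMatrix p * mapGL ℝ g =
        mapGL ℝ (mkSL (g 0 0) (p * g 0 1) e (g 1 1) h) * heckeDiagMatrix p := by
  have hdet := det_eq g
  refine ⟨by linear_combination hdet + (g 0 1) * he, ?_⟩
  ext i j
  fin_cases i <;> fin_cases j <;>
    simp [hp, Matrix.mul_apply, Fin.sum_univ_two]
  all_goals first
    | (have := congrArg (Int.cast : ℤ → ℝ) he; push_cast at this ⊢; linear_combination this)
    | (have := congrArg (Int.cast : ℤ → ℝ) he; push_cast at this ⊢; linear_combination -this)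
    | ring1

end commutation

section reindex

variable {p : ℕ} [NeZero p]

theorem sum_range_eq_sum_zmod {M : Type*} [AddCommMonoid M] (F : ℕ → M) :
    ∑ j ∈ Finset.range p, F j = ∑ x : ZMod p, F x.val := by
  refine Finset.sum_nbij' (fun j : ℕ ↦ (j : ZMod p)) (fun x : ZMod p ↦ x.val)
    (fun _ _ ↦ Finset.mem_univ _)
    (fun x _ ↦ Finset.mem_range.mpr x.val_lt) (fun j hj ↦ ?_) (fun x _ ↦ ?_) (fun j hj ↦ ?_)
  · exact ZMod.val_cast_of_lt (Finset.mem_range.mp hj)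
  · exact ZMod.natCast_zmod_val x
  · rw [ZMod.val_cast_of_lt (Finset.mem_range.mp hj)]

theorem heckeU_eq_sum_zmod (k : ℤ) (f : ℍ → ℂ) :
    heckeU k p f = ∑ x : ZMod p, f ∣[k] heckeMatrix p x.val := by
  rw [heckeU_def]
  exact sum_range_eq_sum_zmod _

end reindex

section twisted

variable {p : ℕ}

/-- The twisted coset representatives: `δ · diag(p, 1)` at `∞`, `[1 j; 0 p]` at `j`. -/
def twRep (p : ℕ) (δ : SL(2, ℤ)) (x : OnePoint (ZMod p)) : GL (Fin 2) ℝ :=
  x.elim (mapGL ℝ δ * heckeDiagMatrix p) (fun j ↦ heckeMatrix p j.val)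

@[simp] theorem twRep_infty (δ : SL(2, ℤ)) :
    twRep p δ ∞ = mapGL ℝ δ * heckeDiagMatrix p := rfl

@[simp] theorem twRep_coe (δ : SL(2, ℤ)) (j : ZMod p) :
    twRep p δ j = heckeMatrix p j.val := rfl

/-- The twisted Hecke operator on functions. -/
def heckeTw (k : ℤ) (p : ℕ) (δ : SL(2, ℤ)) (f : ℍ → ℂ) : ℍ → ℂ :=
  heckeU k p f + (f ∣[k] mapGL ℝ δ) ∣[k] heckeDiagMatrix p

theorem heckeTw_eq_sum_onePoint [NeZero p] (k : ℤ) (δ : SL(2, ℤ)) (f : ℍ → ℂ) :
    heckeTw k p δ f = ∑ x : OnePoint (ZMod p), f ∣[k] twRep p δ x := by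
  rw [heckeTw, heckeU_eq_sum_zmod, add_comm, ← SlashAction.slash_mul]
  exact (Fintype.sum_option (fun x : OnePoint (ZMod p) ↦ f ∣[k] twRep p δ x)).symm

variable [Fact p.Prime]

variable (p) in
/-- The reduction of `g` acting on the projective line over `ZMod p` (as in the Prelude). -/
def redMatrix (g : SL(2, ℤ)) : GL (Fin 2) (ZMod p) :=
  Matrix.GeneralLinearGroup.mkOfDetNeZero
    !![((g 1 1 : ℤ) : ZMod p), ((g 0 1 : ℤ) : ZMod p);
      ((g 1 0 : ℤ) : ZMod p), ((g 0 0 : ℤ) : ZMod p)]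
    (by
      have := congrArg (Int.cast : ℤ → ZMod p) (det_eq g)
      push_cast at this
      rw [Matrix.det_fin_two_of,
        show ((g 1 1 : ℤ) : ZMod p) * ((g 0 0 : ℤ) : ZMod p)
            - ((g 0 1 : ℤ) : ZMod p) * ((g 1 0 : ℤ) : ZMod p) = 1 by linear_combination this]
      exact one_ne_zero)

@[simp] theorem redMatrix_apply_zero_zero (g : SL(2, ℤ)) :
    redMatrix p g 0 0 = ((g 1 1 : ℤ) : ZMod p) := by
  simp [redMatrix]

@[simp] theorem redMatrix_apply_zero_one (g : SL(2, ℤ)) :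
    redMatrix p g 0 1 = ((g 0 1 : ℤ) : ZMod p) := by
  simp [redMatrix]

@[simp] theorem redMatrix_apply_one_zero (g : SL(2, ℤ)) :
    redMatrix p g 1 0 = ((g 1 0 : ℤ) : ZMod p) := by
  simp [redMatrix]

@[simp] theorem redMatrix_apply_one_one (g : SL(2, ℤ)) :
    redMatrix p g 1 1 = ((g 0 0 : ℤ) : ZMod p) := by
  simp [redMatrix]

end twisted

section charValue

variable {N : ℕ}

/-- `g` lies in `Γ₀(N)` and its lower right entry is `u` modulo `N`. -/
def G0 (N : ℕ) (g : SL(2, ℤ)) (u : ZMod N) : Prop :=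
  ((g 1 0 : ℤ) : ZMod N) = 0 ∧ ((g 1 1 : ℤ) : ZMod N) = u

theorem G0.mul {a b : SL(2, ℤ)} {u v : ZMod N} (ha : G0 N a u) (hb : G0 N b v) :
    G0 N (a * b) (u * v) := by
  obtain ⟨ha0, ha1⟩ := ha
  obtain ⟨hb0, hb1⟩ := hb
  have h := Matrix.two_mul_expl a.1 b.1
  refine ⟨?_, ?_⟩
  · rw [Matrix.SpecialLinearGroup.coe_mul, h.2.2.1]
    push_cast
    rw [ha0, hb0]; ring
  · rw [Matrix.SpecialLinearGroup.coe_mul, h.2.2.2]
    push_cast
    rw [ha0, ha1, hb1]; ring

theorem G0.inv {a : SL(2, ℤ)} {u v : ZMod N} (ha : G0 N a u) (huv : u * v = 1) :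
    G0 N a⁻¹ v := by
  obtain ⟨ha0, ha1⟩ := ha
  have hdet := congrArg (Int.cast : ℤ → ZMod N) (det_eq a)
  push_cast at hdet
  rw [ha0, ha1, mul_zero, sub_zero] at hdet
  have h00 : ((a 0 0 : ℤ) : ZMod N) = v := by
    calc ((a 0 0 : ℤ) : ZMod N) = ((a 0 0 : ℤ) : ZMod N) * (u * v) := by rw [huv, mul_one]
      _ = (((a 0 0 : ℤ) : ZMod N) * u) * v := by ring
      _ = v := by rw [hdet, one_mul]
  refine ⟨?_, ?_⟩
  · rw [Matrix.SpecialLinearGroup.SL2_inv_expl]
    simp [ha0]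
  · rw [Matrix.SpecialLinearGroup.SL2_inv_expl]
    simpa using h00

theorem G0.one_iff_mem_Gamma1 {g : SL(2, ℤ)} : G0 N g 1 ↔ g ∈ Gamma1 N :=
  (mem_Gamma1_iff g).symm

theorem G0.mem_Gamma0 {g : SL(2, ℤ)} {u : ZMod N} (h : G0 N g u) : g ∈ Gamma0 N :=
  Gamma0_mem.mpr h.1

end charValue

section main

variable {p : ℕ} [Fact p.Prime] {N : ℕ}

theorem natCast_mul_inv_zmod (hpN : ¬ p ∣ N) : ((p : ℕ) : ZMod N) * ((p : ℕ) : ZMod N)⁻¹ = 1 :=
  ZMod.coe_mul_inv_eq_one p ((Nat.Prime.coprime_iff_not_dvd Fact.out).mpr hpN)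

/-- The coset permutation for the twisted representatives. -/
theorem twRep_mul (hpN : ¬ p ∣ N) {δ : SL(2, ℤ)} (hδ : G0 N δ (p : ZMod N))
    {g : SL(2, ℤ)} {u : ZMod N} (hg : G0 N g u) (x : OnePoint (ZMod p)) :
    ∃ g' : SL(2, ℤ), G0 N g' u ∧
      twRep p δ x * mapGL ℝ g = mapGL ℝ g' * twRep p δ (redMatrix p g • x) := by
  have hp : p ≠ 0 := (Fact.out : p.Prime).ne_zero
  have : NeZero p := ⟨hp⟩
  have hpinv := natCast_mul_inv_zmod (p := p) (N := N) hpN
  have hδinv : G0 N δ⁻¹ ((p : ZMod N)⁻¹) := hδ.inv hpinv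
  obtain ⟨hg0, hg1⟩ := hg
  induction x using OnePoint.rec with
  | infty =>
    rw [OnePoint.smul_infty_eq_ite]
    by_cases hc : ((g 1 0 : ℤ) : ZMod p) = 0
    · rw [if_pos (by simpa using hc), twRep_infty]
      obtain ⟨e, he⟩ := (ZMod.intCast_zmod_eq_zero_iff_dvd _ _).mp hc
      obtain ⟨h, hmul⟩ := heckeDiag_mul_heckeDiag hp g e he
      have he0 : ((e : ℤ) : ZMod N) = 0 := by
        have h1 : ((p : ℕ) : ZMod N) * ((e : ℤ) : ZMod N) = 0 := by
          have := congrArg (Int.cast : ℤ → ZMod N) he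
          push_cast at this
          rw [← this, hg0]
        calc ((e : ℤ) : ZMod N) = ((p : ZMod N)⁻¹ * (p : ZMod N)) * e := by
              rw [mul_comm ((p : ZMod N)⁻¹), hpinv, one_mul]
          _ = (p : ZMod N)⁻¹ * ((p : ZMod N) * e) := by ring
          _ = 0 := by rw [h1, mul_zero]
      have hg₁ : G0 N (mkSL (g 0 0) (p * g 0 1) e (g 1 1) h) u :=
        ⟨by simpa using he0, by simpa using hg1⟩
      refine ⟨δ * mkSL (g 0 0) (p * g 0 1) e (g 1 1) h * δ⁻¹, ?_, ?_⟩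
      · have hu : (p : ZMod N) * u * (p : ZMod N)⁻¹ = u := by
          rw [mul_comm (p : ZMod N) u, mul_assoc, hpinv, mul_one]
        have := (hδ.mul hg₁).mul hδinv
        rwa [hu] at this
      · rw [mul_assoc, hmul, map_mul, map_mul, map_inv]
        group
    · rw [if_neg (by simpa using hc), twRep_infty, twRep_coe]
      set y : ZMod p := redMatrix p g 0 0 / redMatrix p g 1 0 with hy
      obtain ⟨e, he⟩ : (p : ℤ) ∣ g 1 1 - g 1 0 * y.val := by
        rw [← ZMod.intCast_zmod_eq_zero_iff_dvd]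
        push_cast
        rw [ZMod.natCast_zmod_val, hy, redMatrix_apply_zero_zero, redMatrix_apply_one_zero,
          mul_div_cancel₀ _ hc, sub_self]
      obtain ⟨h, hmul⟩ := heckeDiag_mul_heckeMatrix hp g y.val e (by linear_combination he)
      have he1 : ((e : ℤ) : ZMod N) = (p : ZMod N)⁻¹ * u := by
        have h1 : ((p : ℕ) : ZMod N) * ((e : ℤ) : ZMod N) = u := by
          have := congrArg (Int.cast : ℤ → ZMod N) he
          push_cast at this
          rw [← this, hg0, hg1]; ring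
        calc ((e : ℤ) : ZMod N) = ((p : ZMod N)⁻¹ * (p : ZMod N)) * e := by
              rw [mul_comm ((p : ZMod N)⁻¹), hpinv, one_mul]
          _ = (p : ZMod N)⁻¹ * ((p : ZMod N) * e) := by ring
          _ = (p : ZMod N)⁻¹ * u := by rw [h1]
      have hg₁ : G0 N (mkSL (p * g 0 0) (g 0 1 - g 0 0 * y.val) (g 1 0) e h)
          ((p : ZMod N)⁻¹ * u) :=
        ⟨by simpa using hg0, by simpa using he1⟩
      refine ⟨δ * mkSL (p * g 0 0) (g 0 1 - g 0 0 * y.val) (g 1 0) e h, ?_, ?_⟩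
      · have hu : (p : ZMod N) * ((p : ZMod N)⁻¹ * u) = u := by
          rw [← mul_assoc, hpinv, one_mul]
        have := hδ.mul hg₁
        rwa [hu] at this
      · rw [mul_assoc, hmul, map_mul, mul_assoc]
  | coe j =>
    rw [OnePoint.smul_some_eq_ite]
    by_cases h : redMatrix p g 1 0 * j + redMatrix p g 1 1 = 0
    · rw [if_pos h, twRep_infty, twRep_coe]
      rw [redMatrix_apply_one_zero, redMatrix_apply_one_one] at h
      obtain ⟨e, he⟩ : (p : ℤ) ∣ g 0 0 + j.val * g 1 0 := by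
        rw [← ZMod.intCast_zmod_eq_zero_iff_dvd]
        push_cast
        rw [ZMod.natCast_zmod_val]
        linear_combination h
      obtain ⟨h', hmul⟩ := heckeMatrix_mul_heckeDiag hp g j.val e he
      have hg₁ : G0 N (mkSL e (g 0 1 + j.val * g 1 1) (g 1 0) (p * g 1 1) h')
          ((p : ZMod N) * u) :=
        ⟨by simpa using hg0, by simp [hg1]⟩
      refine ⟨mkSL e (g 0 1 + j.val * g 1 1) (g 1 0) (p * g 1 1) h' * δ⁻¹, ?_, ?_⟩
      · have hu : (p : ZMod N) * u * (p : ZMod N)⁻¹ = u := by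
          rw [mul_comm (p : ZMod N) u, mul_assoc, hpinv, mul_one]
        have := hg₁.mul hδinv
        rwa [hu] at this
      · rw [hmul, map_mul, map_inv]
        group
    · rw [if_neg h, twRep_coe, twRep_coe]
      set y : ZMod p := (redMatrix p g 0 0 * j + redMatrix p g 0 1) /
        (redMatrix p g 1 0 * j + redMatrix p g 1 1) with hy
      obtain ⟨e, he⟩ : (p : ℤ) ∣ g 0 1 + j.val * g 1 1 - y.val * (g 0 0 + j.val * g 1 0) := by
        rw [← ZMod.intCast_zmod_eq_zero_iff_dvd]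
        push_cast
        rw [ZMod.natCast_zmod_val, ZMod.natCast_zmod_val,
          show ((g 0 0 : ℤ) : ZMod p) + j * ((g 1 0 : ℤ) : ZMod p)
            = redMatrix p g 1 0 * j + redMatrix p g 1 1 by
              rw [redMatrix_apply_one_zero, redMatrix_apply_one_one]; ring,
          hy, div_mul_cancel₀ _ h, redMatrix_apply_zero_zero, redMatrix_apply_zero_one]
        ring
      obtain ⟨h', hmul⟩ := heckeMatrix_mul_heckeMatrix hp g j.val y.val e
        (by linear_combination he)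
      refine ⟨_, ⟨?_, ?_⟩, hmul⟩
      · simp [hg0]
      · simp [hg0, hg1]

/-- **Invariance of the twisted Hecke operator**: if `f` is weight-`k` invariant under `Γ₁(N)`,
`p ∤ N` is prime and `δ ∈ Γ₀(N)` has lower right entry `p` modulo `N`, then
`heckeU k p f + (f ∣[k] δ) ∣[k] diag(p, 1)` is again invariant under `Γ₁(N)`. -/
theorem heckeTw_inv (k : ℤ) (hpN : ¬ p ∣ N) {δ : SL(2, ℤ)} (hδ : G0 N δ (p : ZMod N))
    {f : ℍ → ℂ} (hf : Inv1 N k f) : Inv1 N k (heckeTw k p δ f) := by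
  intro g hg
  have : NeZero p := ⟨(Fact.out : p.Prime).ne_zero⟩
  have hg' : G0 N g 1 := G0.one_iff_mem_Gamma1.mpr hg
  rw [heckeTw_eq_sum_onePoint k δ f, SlashAction.sum_slash]
  calc ∑ x : OnePoint (ZMod p), (f ∣[k] twRep p δ x) ∣[k] mapGL ℝ g
      = ∑ x : OnePoint (ZMod p), f ∣[k] twRep p δ (redMatrix p g • x) := by
        refine Finset.sum_congr rfl fun x _ ↦ ?_
        obtain ⟨g', hg'1, hmul⟩ := twRep_mul hpN hδ hg' x
        rw [← SlashAction.slash_mul, hmul, SlashAction.slash_mul,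
          hf g' (G0.one_iff_mem_Gamma1.mp hg'1)]
    _ = ∑ x : OnePoint (ZMod p), f ∣[k] twRep p δ x :=
        Equiv.sum_comp (MulAction.toPerm (redMatrix p g)) (fun x ↦ f ∣[k] twRep p δ x)

/-- Slashing by an element of `Γ₀(N)` preserves `Γ₁(N)`-invariance. -/
theorem Inv1.slash {k : ℤ} {f : ℍ → ℂ} (hf : Inv1 N k f) {δ : SL(2, ℤ)} {u v : ZMod N}
    (hδ : G0 N δ u) (huv : u * v = 1) : Inv1 N k (f ∣[k] mapGL ℝ δ) := by
  intro g hg
  have hg' : G0 N g 1 := G0.one_iff_mem_Gamma1.mpr hg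
  have hδinv : G0 N δ⁻¹ v := hδ.inv huv
  have hconj : G0 N (δ * g * δ⁻¹) 1 := by
    have := (hδ.mul hg').mul hδinv
    rwa [mul_one, huv] at this
  have h1 := hf _ (G0.one_iff_mem_Gamma1.mp hconj)
  rw [← SlashAction.slash_mul]
  have : mapGL ℝ δ * mapGL ℝ g = mapGL ℝ (δ * g * δ⁻¹) * mapGL ℝ δ := by
    rw [← map_mul, ← map_mul]; congr 1; group
  rw [this, SlashAction.slash_mul, h1]

/-- The slash by `δ ∈ Γ₀(N)` of a `Γ₁(N)`-invariant function only depends on the lower right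
entry of `δ` modulo `N`. -/
theorem Inv1.slash_congr {k : ℤ} {f : ℍ → ℂ} (hf : Inv1 N k f) {δ δ' : SL(2, ℤ)} {u v : ZMod N}
    (hδ : G0 N δ u) (hδ' : G0 N δ' u) (huv : u * v = 1) :
    f ∣[k] mapGL ℝ δ = f ∣[k] mapGL ℝ δ' := by
  have hδinv : G0 N δ'⁻¹ v := hδ'.inv huv
  have h1 : G0 N (δ * δ'⁻¹) 1 := by
    have := hδ.mul hδinv
    rwa [huv] at this
  have := hf _ (G0.one_iff_mem_Gamma1.mp h1)
  calc f ∣[k] mapGL ℝ δ = f ∣[k] (mapGL ℝ (δ * δ'⁻¹) * mapGL ℝ δ') := by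
        rw [← map_mul]; congr 2; group
    _ = f ∣[k] mapGL ℝ δ' := by rw [SlashAction.slash_mul, this]

/-- The twisted Hecke operator commutes with the slash by elements of `Γ₀(N)` (the diamond
operators). -/
theorem heckeTw_slash_G0 (k : ℤ) (hpN : ¬ p ∣ N) {δ : SL(2, ℤ)} (hδ : G0 N δ (p : ZMod N))
    {f : ℍ → ℂ} (hf : Inv1 N k f) {g : SL(2, ℤ)} {u v : ZMod N} (hg : G0 N g u)
    (huv : u * v = 1) :
    (heckeTw k p δ f) ∣[k] mapGL ℝ g = heckeTw k p δ (f ∣[k] mapGL ℝ g) := by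
  have : NeZero p := ⟨(Fact.out : p.Prime).ne_zero⟩
  rw [heckeTw_eq_sum_onePoint k δ f, heckeTw_eq_sum_onePoint k δ (f ∣[k] mapGL ℝ g),
    SlashAction.sum_slash]
  calc ∑ x : OnePoint (ZMod p), (f ∣[k] twRep p δ x) ∣[k] mapGL ℝ g
      = ∑ x : OnePoint (ZMod p), (f ∣[k] mapGL ℝ g) ∣[k] twRep p δ (redMatrix p g • x) := by
        refine Finset.sum_congr rfl fun x _ ↦ ?_
        obtain ⟨g', hg'1, hmul⟩ := twRep_mul hpN hδ hg x
        rw [← SlashAction.slash_mul, hmul, SlashAction.slash_mul,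
          hf.slash_congr hg'1 hg huv]
    _ = ∑ x : OnePoint (ZMod p), (f ∣[k] mapGL ℝ g) ∣[k] twRep p δ x :=
        Equiv.sum_comp (MulAction.toPerm (redMatrix p g))
          (fun x ↦ (f ∣[k] mapGL ℝ g) ∣[k] twRep p δ x)

end main

end Fermat.Agent.S48.A.Neb
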