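import Mathlib
import Fermat.Prelude.Def_FLTPrelim_Modularity
import Fermat.Prelude.Def_ModularForm_HeckeOperator
import Fermat.Prelude.Thm_UpperHalfPlane_qCoeff_heckeT
import Fermat.Prelude.Thm_UpperHalfPlane_qCoeff_heckeU
import Fermat.Prelude.Thm_UpperHalfPlane_eq_of_forall_qCoeff_eq
import Fermat.Prelude.Thm_ModularForm_periodic_heckeT_comp_ofComplex
import Fermat.Prelude.Thm_ModularForm_periodic_heckeU_comp_ofComplex
import Fermat.Prelude.Thm_ModularForm_mdifferentiable_heckeT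
import Fermat.Prelude.Thm_ModularForm_mdifferentiable_heckeU
import Fermat.Prelude.Thm_ModularForm_isBoundedAtImInfty_heckeT
import Fermat.Prelude.Thm_ModularForm_isBoundedAtImInfty_heckeU
import Fermat.Prelude.Thm_ModularForm_sturm_bound_of_isArithmetic
import Fermat.Agent.S48.A.Neb.Twist

/-!
# S48, part A, brick A1b (nebentypus), file 2

* `Nice`: periodic, holomorphic, bounded at `i∞`; `q`-coefficients of `F ∣[k] diag(p, 1)`;
* `eq_zero_of_inv1_slash_diag`: a cusp form `F` on `Γ₁(N)` such that `F ∣[k] diag(p, 1)` is again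
  `Γ₁(N)`-invariant, `p ∤ N` prime, is zero.
-/

set_option autoImplicit false

noncomputable section

namespace Fermat.Agent.S48.A.Neb

open Matrix.SpecialLinearGroup UpperHalfPlane CongruenceSubgroup ModularForm
open scoped MatrixGroups ModularForm OnePoint Manifold

theorem one_mem_strictPeriods_Gamma1 (N : ℕ) :
    (1 : ℝ) ∈ (Subgroup.map (mapGL ℝ) (Gamma1 N)).strictPeriods := by
  have hT : ModularGroup.T ∈ Gamma1 N := by
    rw [Gamma1_mem]
    simp [ModularGroup.T]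
  rw [Subgroup.strictPeriods_eq_zmultiples_one_of_T_mem hT]
  exact AddSubgroup.mem_zmultiples (1 : ℝ)

/-- Periodic of period `1`, holomorphic, bounded at `i∞`. -/
structure Nice (F : ℍ → ℂ) : Prop where
  per : Function.Periodic (F ∘ ofComplex) 1
  hol : MDiff F
  bdd : IsBoundedAtImInfty F

namespace Nice

variable {F G : ℍ → ℂ}

theorem analyticAt (hF : Nice F) : AnalyticAt ℂ (cuspFunction 1 F) 0 :=
  analyticAt_cuspFunction_zero one_pos hF.per hF.hol hF.bdd

theorem add (hF : Nice F) (hG : Nice G) : Nice (F + G) where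
  per := fun z ↦ by
    have h1 := hF.per z; have h2 := hG.per z
    simp only [Function.comp_apply, Pi.add_apply] at h1 h2 ⊢
    rw [h1, h2]
  hol := hF.hol.add hG.hol
  bdd := hF.bdd.add hG.bdd

theorem smul (c : ℂ) (hF : Nice F) : Nice (c • F) where
  per := fun z ↦ by
    have h1 := hF.per z
    simp only [Function.comp_apply, Pi.smul_apply] at h1 ⊢
    rw [h1]
  hol := hF.hol.const_smul c
  bdd := hF.bdd.const_smul_left c

theorem neg (hF : Nice F) : Nice (-F) := by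
  have := hF.smul (-1)
  simpa using this

theorem sub (hF : Nice F) (hG : Nice G) : Nice (F - G) := by
  rw [sub_eq_add_neg]; exact hF.add hG.neg

theorem heckeU (hF : Nice F) (k : ℤ) (p : ℕ) : Nice (ModularForm.heckeU k p F) where
  per := ModularForm.periodic_heckeU_comp_ofComplex hF.per k p
  hol := ModularForm.mdifferentiable_heckeU hF.hol k p
  bdd := ModularForm.isBoundedAtImInfty_heckeU hF.bdd k p

theorem heckeT (hF : Nice F) (k : ℤ) (p : ℕ) : Nice (ModularForm.heckeT k p F) where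
  per := ModularForm.periodic_heckeT_comp_ofComplex hF.per k p
  hol := ModularForm.mdifferentiable_heckeT hF.hol k p
  bdd := ModularForm.isBoundedAtImInfty_heckeT hF.bdd k p

theorem slash_diag (hF : Nice F) (k : ℤ) (p : ℕ) : Nice (F ∣[k] heckeDiagMatrix p) := by
  have h : F ∣[k] heckeDiagMatrix p = ModularForm.heckeT k p F - ModularForm.heckeU k p F := by
    rw [heckeT_eq_heckeU_add]; abel
  rw [h]; exact (hF.heckeT k p).sub (hF.heckeU k p)

theorem qCoeff_add (hF : Nice F) (hG : Nice G) (n : ℕ) :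
    ModularFormClass.qCoeff (F + G) n = ModularFormClass.qCoeff F n + ModularFormClass.qCoeff G n := by
  change (qExpansion 1 (F + G)).coeff n = (qExpansion 1 F).coeff n + (qExpansion 1 G).coeff n
  rw [qExpansion_add hF.analyticAt hG.analyticAt, map_add]

theorem qCoeff_sub (hF : Nice F) (hG : Nice G) (n : ℕ) :
    ModularFormClass.qCoeff (F - G) n = ModularFormClass.qCoeff F n - ModularFormClass.qCoeff G n := by
  change (qExpansion 1 (F - G)).coeff n = (qExpansion 1 F).coeff n - (qExpansion 1 G).coeff n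
  rw [qExpansion_sub hF.analyticAt hG.analyticAt, map_sub]

theorem qCoeff_smul (c : ℂ) (hF : Nice F) (n : ℕ) :
    ModularFormClass.qCoeff (c • F) n = c * ModularFormClass.qCoeff F n := by
  change (qExpansion 1 (c • F)).coeff n = c * (qExpansion 1 F).coeff n
  rw [qExpansion_smul hF.analyticAt c]
  simp

theorem qCoeff_heckeU (hF : Nice F) (k : ℤ) {p : ℕ} (hp : p ≠ 0) (n : ℕ) :
    ModularFormClass.qCoeff (ModularForm.heckeU k p F) n = ModularFormClass.qCoeff F (n * p) := by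
  rw [UpperHalfPlane.qCoeff_heckeU hF.per hF.hol hF.bdd k hp n, coeffHeckeU_apply]

theorem qCoeff_slash_diag (hF : Nice F) (k : ℤ) {p : ℕ} (hp : p ≠ 0) (n : ℕ) :
    ModularFormClass.qCoeff (F ∣[k] heckeDiagMatrix p) n =
      if p ∣ n then (p : ℂ) ^ (k - 1) * ModularFormClass.qCoeff F (n / p) else 0 := by
  have h : F ∣[k] heckeDiagMatrix p = ModularForm.heckeT k p F - ModularForm.heckeU k p F := by
    rw [heckeT_eq_heckeU_add]; abel
  rw [h, qCoeff_sub (hF.heckeT k p) (hF.heckeU k p),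
    UpperHalfPlane.qCoeff_heckeT hF.per hF.hol hF.bdd k hp n,
    UpperHalfPlane.qCoeff_heckeU hF.per hF.hol hF.bdd k hp n, coeffHeckeT_apply, coeffHeckeU_apply]
  ring

theorem eq_of_qCoeff (hF : Nice F) (hG : Nice G)
    (h : ∀ n, ModularFormClass.qCoeff F n = ModularFormClass.qCoeff G n) : F = G :=
  UpperHalfPlane.eq_of_forall_qCoeff_eq hF.per hF.hol hF.bdd hG.per hG.hol hG.bdd h

end Nice

section cuspForms

variable {N : ℕ} [NeZero N] {k : ℤ}

theorem nice_cuspForm (f : CuspForm (Gamma1 N) k) : Nice ⇑f where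
  per := SlashInvariantFormClass.periodic_comp_ofComplex f (one_mem_strictPeriods_Gamma1 N)
  hol := CuspFormClass.holo f
  bdd := ModularFormClass.bdd_at_infty f

theorem inv1_cuspForm (f : CuspForm (Gamma1 N) k) : Inv1 N k ⇑f := fun g hg ↦
  SlashInvariantFormClass.slash_action_eq f _ (Subgroup.mem_map_of_mem _ hg)

end cuspForms

section ratGL

/-- The image of `GL(2, ℚ)` in `GL(2, ℝ)`. -/
def ratGL : Subgroup (GL (Fin 2) ℝ) :=
  (Matrix.GeneralLinearGroup.map (n := Fin 2) (Rat.castHom ℝ)).range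

theorem mapGL_mem_ratGL (γ : SL(2, ℤ)) : mapGL ℝ γ ∈ ratGL := by
  refine ⟨mapGL ℚ γ, ?_⟩
  ext i j
  simp

theorem heckeDiagMatrix_mem_ratGL (p : ℕ) : heckeDiagMatrix p ∈ ratGL := by
  rcases eq_or_ne p 0 with rfl | hp
  · simp only [heckeDiagMatrix_zero]; exact ratGL.one_mem
  · refine ⟨Matrix.GeneralLinearGroup.mkOfDetNeZero !![(p : ℚ), 0; 0, 1] ?_, ?_⟩
    · rw [Matrix.det_fin_two_of]; simpa using hp
    · ext i j
      fin_cases i <;> fin_cases j <;> simp [val_heckeDiagMatrix hp]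

theorem heckeMatrix_mem_ratGL (p j : ℕ) : heckeMatrix p j ∈ ratGL := by
  rcases eq_or_ne p 0 with rfl | hp
  · simp only [heckeMatrix_zero]; exact ratGL.one_mem
  · refine ⟨Matrix.GeneralLinearGroup.mkOfDetNeZero !![(1 : ℚ), (j : ℚ); 0, (p : ℚ)] ?_, ?_⟩
    · rw [Matrix.det_fin_two_of]; simpa using hp
    · ext i j
      fin_cases i <;> fin_cases j <;> simp [val_heckeMatrix hp]

theorem isCusp_smul_infty_of_mem_ratGL {A : GL (Fin 2) ℝ} (hA : A ∈ ratGL) :
    IsCusp (A • (∞ : OnePoint ℝ)) 𝒮ℒ := by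
  obtain ⟨B, rfl⟩ := hA
  rw [isCusp_SL2Z_iff]
  refine ⟨B • ∞, ?_⟩
  rw [← Rat.coe_castHom, OnePoint.map_smul, OnePoint.map_infty]

end ratGL

section cuspQ

variable {N : ℕ} [NeZero N] {k : ℤ}

/-- Holomorphic and zero at `i∞` after every rational slash: "cuspidal at all rational cusps". -/
def CuspQ (k : ℤ) (F : ℍ → ℂ) : Prop :=
  MDiff F ∧ ∀ A ∈ ratGL, IsZeroAtImInfty (F ∣[k] A)

theorem cuspQ_cuspForm (f : CuspForm (Gamma1 N) k) : CuspQ k ⇑f := by
  refine ⟨CuspFormClass.holo f, fun A hA ↦ ?_⟩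
  have hc : IsCusp (A • (∞ : OnePoint ℝ)) (Subgroup.map (mapGL ℝ) (Gamma1 N)) :=
    (Subgroup.IsArithmetic.isCusp_iff_isCusp_SL2Z _).mpr (isCusp_smul_infty_of_mem_ratGL hA)
  exact CuspFormClass.zero_at_cusps f hc A rfl

theorem CuspQ.slash {F : ℍ → ℂ} (hF : CuspQ k F) {A : GL (Fin 2) ℝ} (hA : A ∈ ratGL) :
    CuspQ k (F ∣[k] A) := by
  refine ⟨hF.1.slash k A, fun B hB ↦ ?_⟩
  rw [← SlashAction.slash_mul]
  exact hF.2 _ (ratGL.mul_mem hA hB)

theorem CuspQ.sub {F G : ℍ → ℂ} (hF : CuspQ k F) (hG : CuspQ k G) : CuspQ k (F - G) := by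
  refine ⟨hF.1.sub hG.1, fun A hA ↦ ?_⟩
  rw [sub_eq_add_neg, SlashAction.add_slash, SlashAction.neg_slash]
  exact (hF.2 A hA).add (hG.2 A hA).neg

theorem CuspQ.smul {F : ℍ → ℂ} (c : ℂ) (hF : CuspQ k F) : CuspQ k (c • F) := by
  refine ⟨hF.1.const_smul c, fun A hA ↦ ?_⟩
  rw [ModularForm.smul_slash]
  exact (hF.2 A hA).smul _

theorem CuspQ.zero : CuspQ k (0 : ℍ → ℂ) := by
  refine ⟨mdifferentiable_const, fun A _ ↦ ?_⟩
  rw [SlashAction.zero_slash]
  exact Filter.zero_zeroAtFilter _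

theorem CuspQ.add {F G : ℍ → ℂ} (hF : CuspQ k F) (hG : CuspQ k G) : CuspQ k (F + G) := by
  refine ⟨hF.1.add hG.1, fun A hA ↦ ?_⟩
  rw [SlashAction.add_slash]
  exact (hF.2 A hA).add (hG.2 A hA)

theorem CuspQ.sum {ι : Type*} (s : Finset ι) {F : ι → ℍ → ℂ} (hF : ∀ i ∈ s, CuspQ k (F i)) :
    CuspQ k (∑ i ∈ s, F i) := by
  classical
  induction s using Finset.induction_on with
  | empty => simpa using (CuspQ.zero (k := k))
  | insert a s ha ih =>
    rw [Finset.sum_insert ha]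
    exact (hF a (Finset.mem_insert_self a s)).add
      (ih fun i hi ↦ hF i (Finset.mem_insert_of_mem hi))

theorem CuspQ.heckeU {F : ℍ → ℂ} (hF : CuspQ k F) (p : ℕ) :
    CuspQ k (ModularForm.heckeU k p F) := by
  rw [heckeU_def]
  exact CuspQ.sum _ fun j _ ↦ hF.slash (heckeMatrix_mem_ratGL p j)

theorem CuspQ.heckeTw {F : ℍ → ℂ} (hF : CuspQ k F) (p : ℕ) (δ : SL(2, ℤ)) :
    CuspQ k (heckeTw k p δ F) :=
  (hF.heckeU p).add ((hF.slash (mapGL_mem_ratGL δ)).slash (heckeDiagMatrix_mem_ratGL p))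

/-- Package a `Γ₁(N)`-invariant cuspidal function as a cusp form. -/
def CuspQ.toCuspForm {F : ℍ → ℂ} (hF : CuspQ k F) (hinv : Inv1 N k F) :
    CuspForm (Gamma1 N) k where
  toFun := F
  slash_action_eq' := by
    rintro γ ⟨g, hg, rfl⟩
    exact hinv g hg
  holo' := hF.1
  zero_at_cusps' := by
    intro c hc
    rw [Subgroup.IsArithmetic.isCusp_iff_isCusp_SL2Z] at hc
    obtain ⟨γ, rfl⟩ := isCusp_SL2Z_iff'.mp hc
    rw [OnePoint.IsZeroAt.smul_iff, OnePoint.isZeroAt_infty_iff]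
    exact hF.2 _ (mapGL_mem_ratGL γ)

@[simp] theorem CuspQ.coe_toCuspForm {F : ℍ → ℂ} (hF : CuspQ k F) (hinv : Inv1 N k F) :
    ⇑(hF.toCuspForm hinv) = F := rfl

end cuspQ

section inv1

variable {N : ℕ} {k : ℤ} {F G : ℍ → ℂ}

theorem Inv1.add (hF : Inv1 N k F) (hG : Inv1 N k G) : Inv1 N k (F + G) := fun g hg ↦ by
  rw [SlashAction.add_slash, hF g hg, hG g hg]

theorem Inv1.neg (hF : Inv1 N k F) : Inv1 N k (-F) := fun g hg ↦ by
  rw [SlashAction.neg_slash, hF g hg]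

theorem Inv1.sub (hF : Inv1 N k F) (hG : Inv1 N k G) : Inv1 N k (F - G) := by
  rw [sub_eq_add_neg]; exact hF.add hG.neg

theorem Inv1.smul (c : ℂ) (hF : Inv1 N k F) : Inv1 N k (c • F) := fun g hg ↦ by
  have h1 : (c • F) ∣[k] (mapGL ℝ g) = c • F ∣[k] g := ModularForm.SL_smul_slash k g F c
  have h2 : F ∣[k] g = F ∣[k] (mapGL ℝ g) := rfl
  rw [h1, h2, hF g hg]

/-- The bundled slash-invariant form of a `Γ₁(N)`-invariant function. -/
def Inv1.toSIF (hF : Inv1 N k F) : SlashInvariantForm (Gamma1 N) k where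
  toFun := F
  slash_action_eq' := by
    rintro γ ⟨g, hg, rfl⟩
    exact hF g hg

theorem Inv1.periodic (hF : Inv1 N k F) : Function.Periodic (F ∘ ofComplex) 1 :=
  SlashInvariantFormClass.periodic_comp_ofComplex hF.toSIF (one_mem_strictPeriods_Gamma1 N)

end inv1

section heckeUdiag

variable {k : ℤ} {G : ℍ → ℂ}

theorem per_apply (hG : Function.Periodic (G ∘ ofComplex) 1) (τ τ' : ℍ) (j : ℕ)
    (h : (τ' : ℂ) = τ + j) : G τ' = G τ := by
  have h1 := (hG.nat_mul j) (τ : ℂ)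
  simp only [Function.comp_apply, mul_one] at h1
  rw [← h, ofComplex_apply, ofComplex_apply] at h1
  exact h1

/-- `U_p ∘ V_p = p^(k-1)` on periodic functions. -/
theorem heckeU_slash_diag (hG : Function.Periodic (G ∘ ofComplex) 1) {p : ℕ} (hp : p ≠ 0) :
    heckeU k p (G ∣[k] heckeDiagMatrix p) = ((p : ℂ) ^ (k - 1)) • G := by
  funext τ
  have hp' : (p : ℂ) ≠ 0 := by exact_mod_cast hp
  rw [heckeU_apply k hp, Pi.smul_apply, smul_eq_mul]
  have hterm : ∀ j ∈ Finset.range p,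
      (G ∣[k] heckeDiagMatrix p) (heckeMatrix p j • τ) = (p : ℂ) ^ (k - 1) * G τ := by
    intro j _
    rw [slash_heckeDiagMatrix_apply k hp]
    congr 1
    apply per_apply hG τ _ j
    rw [coe_heckeDiagMatrix_smul hp, coe_heckeMatrix_smul hp]
    field_simp
  rw [Finset.sum_congr rfl hterm, Finset.sum_const, Finset.card_range, nsmul_eq_mul]
  field_simp

end heckeUdiag

section claimA

variable {N : ℕ} {k : ℤ} {p : ℕ} [Fact p.Prime]

/-- Bezout data for `δ = [a b; pN p+N]` and `δ' = [a pb; N p+N]`. -/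
theorem exists_bezout (hpN : ¬ p ∣ N) :
    ∃ a b : ℤ, a * ((p : ℤ) + N) - b * ((p : ℤ) * N) = 1 := by
  have hcop : IsCoprime (p : ℤ) (N : ℤ) :=
    Nat.isCoprime_iff_coprime.mpr ((Nat.Prime.coprime_iff_not_dvd Fact.out).mpr hpN)
  have h1 : IsCoprime ((p : ℤ) + N) (p : ℤ) := by
    have := hcop.symm.add_mul_left_left 1
    simpa [add_comm] using this
  have h2 : IsCoprime ((p : ℤ) + N) (N : ℤ) := by
    have := hcop.add_mul_left_left 1
    simpa using this
  obtain ⟨u, v, huv⟩ := h1.mul_right h2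
  exact ⟨u, -v, by linear_combination huv⟩

/-- **Claim A**: if `F` and `F ∣ diag(p,1)` are `Γ₁(N)`-invariant, so is `F ∣ diag(p,1)²`. -/
theorem inv1_slash_diag_sq (hpN : ¬ p ∣ N) {F : ℍ → ℂ} (hF : Inv1 N k F)
    (hF' : Inv1 N k (F ∣[k] heckeDiagMatrix p)) :
    Inv1 N k ((F ∣[k] heckeDiagMatrix p) ∣[k] heckeDiagMatrix p) := by
  have hp : p ≠ 0 := (Fact.out : p.Prime).ne_zero
  have hpinv := natCast_mul_inv_zmod (p := p) (N := N) hpN
  obtain ⟨a, b, hab⟩ := exists_bezout (p := p) (N := N) hpN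
  -- the two matrices
  set δ : SL(2, ℤ) := mkSL a b ((p : ℤ) * N) ((p : ℤ) + N) hab with hδdef
  have hab' : a * ((p : ℤ) + N) - (p * b) * N = 1 := by linear_combination hab
  set δ' : SL(2, ℤ) := mkSL a ((p : ℤ) * b) N ((p : ℤ) + N) hab' with hδ'def
  have hδ : G0 N δ (p : ZMod N) := ⟨by simp [hδdef], by simp [hδdef]⟩
  have hδ' : G0 N δ' (p : ZMod N) := ⟨by simp [hδ'def], by simp [hδ'def]⟩
  have hδinv : G0 N δ⁻¹ ((p : ZMod N)⁻¹) := hδ.inv hpinv
  have hδ'inv : G0 N δ'⁻¹ ((p : ZMod N)⁻¹) := hδ'.inv hpinv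
  have hpinv' : ((p : ZMod N))⁻¹ * (p : ZMod N) = 1 := by rw [mul_comm]; exact hpinv
  -- the commutation `diag δ = δ' diag`
  have hcomm : heckeDiagMatrix p * mapGL ℝ δ = mapGL ℝ δ' * heckeDiagMatrix p := by
    obtain ⟨h, hmul⟩ := heckeDiag_mul_heckeDiag hp δ (N : ℤ) (by simp [hδdef])
    rw [hmul]
    congr 2
  -- `G₀ = F ∣ δ'⁻¹` and `h₀ = G₀ ∣ diag = (F ∣ diag) ∣ δ⁻¹`
  set G₀ : ℍ → ℂ := F ∣[k] mapGL ℝ δ'⁻¹ with hG₀
  have hG₀inv : Inv1 N k G₀ := hF.slash hδ'inv hpinv'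
  have hh₀ : G₀ ∣[k] heckeDiagMatrix p = (F ∣[k] heckeDiagMatrix p) ∣[k] mapGL ℝ δ⁻¹ := by
    rw [hG₀, ← SlashAction.slash_mul, ← SlashAction.slash_mul]
    congr 1
    rw [map_inv, map_inv, inv_mul_eq_iff_eq_mul, ← mul_assoc, hcomm.symm, mul_assoc,
      mul_inv_cancel, mul_one]
  have hh₀inv : Inv1 N k (G₀ ∣[k] heckeDiagMatrix p) := by
    rw [hh₀]; exact hF'.slash hδinv hpinv'
  have hTw := heckeTw_inv k hpN hδ hh₀inv
  have h1 : heckeTw k p δ (G₀ ∣[k] heckeDiagMatrix p) =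
      ((p : ℂ) ^ (k - 1)) • G₀ + (F ∣[k] heckeDiagMatrix p) ∣[k] heckeDiagMatrix p := by
    have hcancel : ((F ∣[k] heckeDiagMatrix p) ∣[k] mapGL ℝ δ⁻¹) ∣[k] mapGL ℝ δ =
        F ∣[k] heckeDiagMatrix p := by
      rw [← SlashAction.slash_mul, ← map_mul, inv_mul_cancel, map_one, SlashAction.slash_one]
    rw [heckeTw, heckeU_slash_diag hG₀inv.periodic hp, hh₀, hcancel]
  rw [h1] at hTw
  have := hTw.sub (hG₀inv.smul ((p : ℂ) ^ (k - 1)))
  simpa using this

end claimA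

section sturm

variable {N : ℕ} [NeZero N] {k : ℤ} {p : ℕ} [Fact p.Prime]

/-- The iterated slash by `diag(p, 1)`. -/
def iterDiag (k : ℤ) (p : ℕ) (m : ℕ) (F : ℍ → ℂ) : ℍ → ℂ :=
  (fun G : ℍ → ℂ ↦ G ∣[k] heckeDiagMatrix p)^[m] F

theorem iterDiag_zero (F : ℍ → ℂ) : iterDiag k p 0 F = F := rfl

theorem iterDiag_succ (m : ℕ) (F : ℍ → ℂ) :
    iterDiag k p (m + 1) F = (iterDiag k p m F) ∣[k] heckeDiagMatrix p :=
  Function.iterate_succ_apply' _ _ _

theorem iterDiag_inv1 (hpN : ¬ p ∣ N) {F : ℍ → ℂ} (hF : Inv1 N k F)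
    (hF' : Inv1 N k (F ∣[k] heckeDiagMatrix p)) (m : ℕ) :
    Inv1 N k (iterDiag k p m F) ∧ Inv1 N k (iterDiag k p (m + 1) F) := by
  induction m with
  | zero => exact ⟨hF, by rw [iterDiag_succ]; exact hF'⟩
  | succ m ih =>
    refine ⟨ih.2, ?_⟩
    rw [iterDiag_succ, iterDiag_succ]
    have h2 := ih.2
    rw [iterDiag_succ] at h2
    exact inv1_slash_diag_sq hpN ih.1 h2

theorem iterDiag_cuspQ {F : ℍ → ℂ} (hF : CuspQ k F) (m : ℕ) : CuspQ k (iterDiag k p m F) := by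
  induction m with
  | zero => exact hF
  | succ m ih => rw [iterDiag_succ]; exact ih.slash (heckeDiagMatrix_mem_ratGL p)

theorem iterDiag_nice {F : ℍ → ℂ} (hF : Nice F) (m : ℕ) : Nice (iterDiag k p m F) := by
  induction m with
  | zero => exact hF
  | succ m ih => rw [iterDiag_succ]; exact ih.slash_diag k p

theorem iterDiag_qCoeff {F : ℍ → ℂ} (hF : Nice F) (h0 : ModularFormClass.qCoeff F 0 = 0) (m : ℕ) :
    ∀ n < p ^ m, ModularFormClass.qCoeff (iterDiag k p m F) n = 0 := by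
  have hp : p ≠ 0 := (Fact.out : p.Prime).ne_zero
  induction m with
  | zero =>
    intro n hn
    have : n = 0 := by simpa using hn
    rw [this]; exact h0
  | succ m ih =>
    intro n hn
    rw [iterDiag_succ, (iterDiag_nice hF m).qCoeff_slash_diag k hp n]
    split_ifs with hdvd
    · rw [ih (n / p) ?_, mul_zero]
      rw [pow_succ] at hn
      exact Nat.div_lt_of_lt_mul (by rwa [mul_comm] at hn)
    · rfl

theorem iterDiag_eq_zero {F : ℍ → ℂ} {m : ℕ} (h : iterDiag k p m F = 0) : F = 0 := by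
  induction m with
  | zero => exact h
  | succ m ih =>
    rw [iterDiag_succ, SlashAction.slash_eq_zero_iff] at h
    exact ih h

/-- **The level lemma.** A cusp form `F` on `Γ₁(N)` for which `F ∣[k] diag(p, 1)` is again
invariant under `Γ₁(N)`, with `p ∤ N` prime, vanishes. (Equivalently: a cusp form of level `N`
whose `q`-expansion is supported on multiples of `p` is zero.) -/
theorem eq_zero_of_inv1_slash_diag (hpN : ¬ p ∣ N) (F : CuspForm (Gamma1 N) k)
    (hF' : Inv1 N k (⇑F ∣[k] heckeDiagMatrix p)) : (⇑F : ℍ → ℂ) = 0 := by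
  set B : ℕ := (k * (Subgroup.map (mapGL ℝ) (Gamma1 N)).relIndex 𝒮ℒ).toNat / 12 with hB
  obtain ⟨m, hm⟩ : ∃ m : ℕ, B < p ^ m :=
    ⟨B, Nat.lt_pow_self (Fact.out : p.Prime).one_lt⟩
  have hinv := (iterDiag_inv1 hpN (inv1_cuspForm F) hF' m).1
  have hcq := iterDiag_cuspQ (p := p) (cuspQ_cuspForm F) m
  have hnice := nice_cuspForm F
  have h0 : ModularFormClass.qCoeff (⇑F) 0 = 0 :=
    CuspFormClass.qExpansion_coeff_zero F one_pos (one_mem_strictPeriods_Gamma1 N)
  have hcoef := iterDiag_qCoeff (k := k) (p := p) hnice h0 m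
  set Gm : CuspForm (Gamma1 N) k := hcq.toCuspForm hinv with hGm
  have hzero : (ModularFormClass.modularForm Gm : ModularForm _ k) = 0 := by
    apply ModularForm.sturm_bound_of_isArithmetic (one_mem_strictPeriods_Gamma1 N)
    refine lt_of_lt_of_le (b := ((p ^ m : ℕ) : ℕ∞)) (by exact_mod_cast hm) ?_
    apply PowerSeries.nat_le_order
    intro i hi
    exact hcoef i hi
  have hfun : iterDiag k p m ⇑F = 0 := by
    have := congrArg (fun G : ModularForm _ k ↦ (⇑G : ℍ → ℂ)) hzero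
    simpa [hGm] using this
  exact iterDiag_eq_zero hfun

end sturm

end Fermat.Agent.S48.A.Neb
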