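import Mathlib
import Fermat.Agent.S48.A.Neb.Vp

/-!
# S48, part A, brick A1b: the nebentypus from the formal Hecke relations

For `f : CuspForm (Gamma1 N) 1` whose `q`-coefficients satisfy the Hecke relations of S48 with a
Dirichlet character `ε` at all primes `p ∤ N`, we prove `f ∣[1] γ = ε(d_γ) • f` for all
`γ ∈ Γ₀(N)`.
-/

set_option autoImplicit false

noncomputable section

namespace Fermat.Agent.S48.A.Neb

open Matrix.SpecialLinearGroup UpperHalfPlane CongruenceSubgroup ModularForm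
open scoped MatrixGroups ModularForm OnePoint Manifold

variable {N : ℕ} [NeZero N] (ε : DirichletCharacter ℂ N) (f : CuspForm (Gamma1 N) 1)

/-- The function identity `U_p f + ε(p) V_p f = a_p f` coming from the formal Hecke relation. -/
theorem heckeU_add_eps_smul_slash_diag
    (hT : ∀ p : ℕ, p.Prime → ¬ p ∣ N → ∀ n : ℕ,
        ModularFormClass.qCoeff f (p * n) +
            ε (p : ZMod N) * (if p ∣ n then ModularFormClass.qCoeff f (n / p) else 0) =
          ModularFormClass.qCoeff f p * ModularFormClass.qCoeff f n)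
    {p : ℕ} (hp : p.Prime) (hpN : ¬ p ∣ N) :
    heckeU 1 p ⇑f + ε (p : ZMod N) • (⇑f ∣[(1 : ℤ)] heckeDiagMatrix p) =
      ModularFormClass.qCoeff f p • ⇑f := by
  have hnice := nice_cuspForm f
  have hp0 : p ≠ 0 := hp.ne_zero
  refine Nice.eq_of_qCoeff ((hnice.heckeU 1 p).add ((hnice.slash_diag 1 p).smul _))
    (hnice.smul _) fun n ↦ ?_
  rw [Nice.qCoeff_add (hnice.heckeU 1 p) ((hnice.slash_diag 1 p).smul _),
    Nice.qCoeff_smul _ (hnice.slash_diag 1 p), Nice.qCoeff_smul _ hnice,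
    hnice.qCoeff_heckeU 1 hp0, hnice.qCoeff_slash_diag 1 hp0, ← hT p hp hpN n, mul_comm n p]
  simp

/-- The nebentypus at a prime: if `δ ∈ Γ₀(N)` has lower right entry `p` modulo `N`, then
`f ∣[1] δ = ε(p) • f`. -/
theorem slash_eq_eps_smul_of_prime
    (hT : ∀ p : ℕ, p.Prime → ¬ p ∣ N → ∀ n : ℕ,
        ModularFormClass.qCoeff f (p * n) +
            ε (p : ZMod N) * (if p ∣ n then ModularFormClass.qCoeff f (n / p) else 0) =
          ModularFormClass.qCoeff f p * ModularFormClass.qCoeff f n)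
    {p : ℕ} (hp : p.Prime) (hpN : ¬ p ∣ N) {δ : SL(2, ℤ)} (hδ : G0 N δ (p : ZMod N)) :
    ⇑f ∣[(1 : ℤ)] mapGL ℝ δ = ε (p : ZMod N) • ⇑f := by
  have : Fact p.Prime := ⟨hp⟩
  have hpinv := natCast_mul_inv_zmod (p := p) (N := N) hpN
  have hinv := inv1_cuspForm f
  have hcq := cuspQ_cuspForm f
  -- the cusp form `F₀ = f ∣ δ - ε(p) f`
  have hinv₀ : Inv1 N 1 (⇑f ∣[(1 : ℤ)] mapGL ℝ δ - ε (p : ZMod N) • ⇑f) :=
    (hinv.slash hδ hpinv).sub (hinv.smul _)
  have hcq₀ : CuspQ 1 (⇑f ∣[(1 : ℤ)] mapGL ℝ δ - ε (p : ZMod N) • ⇑f) :=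
    (hcq.slash (mapGL_mem_ratGL δ)).sub (hcq.smul _)
  set F₀ : CuspForm (Gamma1 N) 1 := hcq₀.toCuspForm hinv₀ with hF₀
  -- `F₀ ∣ diag = Tw f - a_p f`
  have hkey : (⇑F₀ : ℍ → ℂ) ∣[(1 : ℤ)] heckeDiagMatrix p =
      heckeTw 1 p δ ⇑f - ModularFormClass.qCoeff f p • ⇑f := by
    rw [← heckeU_add_eps_smul_slash_diag ε f hT hp hpN, hF₀, CuspQ.coe_toCuspForm,
      sub_eq_add_neg, SlashAction.add_slash, SlashAction.neg_slash, ModularForm.smul_slash,
      σ_heckeDiagMatrix, heckeTw]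
    simp only [ContinuousAlgEquiv.refl_apply]
    abel
  have hF₀' : Inv1 N 1 ((⇑F₀ : ℍ → ℂ) ∣[(1 : ℤ)] heckeDiagMatrix p) := by
    rw [hkey]
    exact (heckeTw_inv 1 hpN hδ hinv).sub (hinv.smul _)
  have hzero := eq_zero_of_inv1_slash_diag hpN F₀ hF₀'
  rw [hF₀, CuspQ.coe_toCuspForm] at hzero
  exact sub_eq_zero.mp hzero

/-- **Nebentypus from the formal Hecke relations (brick A1b of S48).** -/
theorem slash_eq_eps_smul
    (hT : ∀ p : ℕ, p.Prime → ¬ p ∣ N → ∀ n : ℕ,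
        ModularFormClass.qCoeff f (p * n) +
            ε (p : ZMod N) * (if p ∣ n then ModularFormClass.qCoeff f (n / p) else 0) =
          ModularFormClass.qCoeff f p * ModularFormClass.qCoeff f n)
    (γ : SL(2, ℤ)) (hγ : γ ∈ Gamma0 N) :
    (⇑f) ∣[(1 : ℤ)] γ = ε ((γ 1 1 : ℤ) : ZMod N) • ⇑f := by
  have hγ0 : ((γ 1 0 : ℤ) : ZMod N) = 0 := Gamma0_mem.mp hγ
  -- the lower right entry is a unit modulo `N`
  have hunit : IsUnit (((γ 1 1 : ℤ) : ZMod N)) := by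
    have hdet := congrArg (Int.cast : ℤ → ZMod N) (det_eq γ)
    push_cast at hdet
    rw [hγ0, mul_zero, sub_zero] at hdet
    exact IsUnit.of_mul_eq_one _ (by rw [mul_comm]; exact hdet)
  obtain ⟨p, hpgt, hp, hpmod⟩ := Nat.forall_exists_prime_gt_and_eq_mod hunit N
  have hpN : ¬ p ∣ N := fun h ↦
    absurd (Nat.le_of_dvd (Nat.pos_of_ne_zero (NeZero.ne N)) h) (not_le.mpr hpgt)
  have hδ : G0 N γ (p : ZMod N) := ⟨hγ0, hpmod.symm⟩
  have := slash_eq_eps_smul_of_prime ε f hT hp hpN hδ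
  rw [hpmod] at this
  exact this

/-- The character is odd as soon as `f ≠ 0`. -/
theorem eps_neg_one
    (hT : ∀ p : ℕ, p.Prime → ¬ p ∣ N → ∀ n : ℕ,
        ModularFormClass.qCoeff f (p * n) +
            ε (p : ZMod N) * (if p ∣ n then ModularFormClass.qCoeff f (n / p) else 0) =
          ModularFormClass.qCoeff f p * ModularFormClass.qCoeff f n)
    (hf : f ≠ 0) : ε (-1) = -1 := by
  have hmem : (-1 : SL(2, ℤ)) ∈ Gamma0 N := by
    rw [Gamma0_mem]; simp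
  have h := slash_eq_eps_smul ε f hT (-1) hmem
  obtain ⟨τ, hτ⟩ : ∃ τ, f τ ≠ 0 := by
    by_contra hcon
    push Not at hcon
    exact hf (CuspForm.ext hcon)
  have h1 := congrFun h τ
  rw [ModularForm.SL_slash_apply] at h1
  have h2 : ((-1 : SL(2, ℤ)) • τ) = τ := by
    simp
  simp only [Pi.smul_apply, smul_eq_mul] at h1
  have hden : denom ((-1 : SL(2, ℤ)) : GL (Fin 2) ℝ) τ = -1 := by
    simp [denom]
  have hval : ((((-1 : SL(2, ℤ)) 1 1 : ℤ)) : ZMod N) = -1 := by simp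
  rw [h2] at h1
  rw [hden, hval] at h1
  have h3 : ((-1 : ℂ)) ^ (-1 : ℤ) = -1 := by norm_num
  rw [h3] at h1
  exact mul_right_cancel₀ hτ (by rw [← h1, mul_comm] : ε (-1) * f τ = (-1) * f τ)

end Fermat.Agent.S48.A.Neb
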